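import Mathlib

/-!
# S48 P5 seat (E), part 2: `Gal(L(ζ_t)/E) ≅ Gal(L/E) × (ℤ/t)ˣ` when `Φ_t` is irreducible over `L`
-/

set_option autoImplicit false

open NumberField Polynomial

namespace Fermat.Agent.S48Cheb

/-- `L(ζ_t)/E` is Galois. -/
theorem cf_isGalois (E L K : Type) [Field E] [Field L] [Field K] [CharZero E]
    [Algebra E L] [Algebra L K] [Algebra E K] [IsScalarTower E L K] [FiniteDimensional E L]
    [IsGalois E L] (t : ℕ) [NeZero t] [IsCyclotomicExtension {t} L K] : IsGalois E K := by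
  have : FiniteDimensional L K := IsCyclotomicExtension.finiteDimensional {t} L K
  have : FiniteDimensional E K := Module.Finite.trans L K
  obtain ⟨f, hfsep, hf⟩ := IsGalois.is_separable_splitting_field E L
  have hf0 : f ≠ 0 := hfsep.ne_zero
  have hg0 : (X ^ t - 1 : E[X]) ≠ 0 := by
    apply Monic.ne_zero
    exact monic_X_pow_sub_C (1 : E) (NeZero.ne t)
  have hsp : IsSplittingField L K ((X ^ t - 1 : E[X]).map (algebraMap E L)) := by
    rw [Polynomial.map_sub, Polynomial.map_pow, Polynomial.map_X, Polynomial.map_one]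
    exact IsCyclotomicExtension.isSplittingField_X_pow_sub_one t L K
  have hmul : IsSplittingField E K (f * (X ^ t - 1)) :=
    IsSplittingField.mul (F := E) (K := L) K f (X ^ t - 1) hf0 hg0
  have hnorm : Normal E K := Normal.of_isSplittingField (f * (X ^ t - 1))
  exact { }

/-- `[L(ζ_t) : E] = [L : E] (t - 1)` for `t` prime with `Φ_t` irreducible over `L`. -/
theorem cf_finrank (E L K : Type) [Field E] [Field L] [Field K]
    [Algebra E L] [Algebra L K] [Algebra E K] [IsScalarTower E L K] [FiniteDimensional E L]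
    (t : ℕ) [NeZero t] (ht : t.Prime) [IsCyclotomicExtension {t} L K]
    (hirr : Irreducible (cyclotomic t L)) :
    Module.finrank E K = Module.finrank E L * (t - 1) := by
  have : FiniteDimensional L K := IsCyclotomicExtension.finiteDimensional {t} L K
  rw [← Module.finrank_mul_finrank E L K, IsCyclotomicExtension.finrank K hirr,
    Nat.totient_prime ht]

/-- An `E`-automorphism of `L(ζ_t)` which is trivial on `L` and fixes `ζ` is trivial. -/
theorem cf_eq_one (E L K : Type) [Field E] [Field L] [Field K]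
    [Algebra E L] [Algebra L K] [Algebra E K] [IsScalarTower E L K] [Normal E L]
    (t : ℕ) [NeZero t] [IsCyclotomicExtension {t} L K] (ζ : K) (hζ : IsPrimitiveRoot ζ t)
    (σ : K ≃ₐ[E] K) (hres : AlgEquiv.restrictNormalHom L σ = 1) (hσζ : σ ζ = ζ) : σ = 1 := by
  have hfix : ∀ x : L, σ (algebraMap L K x) = algebraMap L K x := by
    intro x
    have h1 := AlgEquiv.restrictNormal_commutes σ L x
    have h2 : σ.restrictNormal L = 1 := hres
    rw [h2] at h1
    exact h1.symm
  -- `σ` as an `L`-algebra map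
  let τ : K →ₐ[L] K :=
    { (σ : K →+* K) with
      commutes' := hfix }
  have hτ : τ = AlgHom.id L K := by
    apply AlgHom.ext_of_adjoin_eq_top (IsCyclotomicExtension.adjoin_primitive_root_eq_top hζ)
    intro x hx
    rw [Set.mem_singleton_iff] at hx
    rw [hx]
    exact hσζ
  ext x
  have := congrArg (fun f : K →ₐ[L] K => f x) hτ
  exact this

/-- Every pair `(g, a) ∈ Gal(L/E) × (ℤ/t)ˣ` comes from an element of `Gal(L(ζ_t)/E)`. -/
theorem cf_exists (E L K : Type) [Field E] [Field L] [Field K]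
    [Algebra E L] [Algebra L K] [Algebra E K] [IsScalarTower E L K] [Normal E L] [Normal E K]
    (t : ℕ) [NeZero t] [IsCyclotomicExtension {t} L K]
    (hirr : Irreducible (cyclotomic t L)) (g : L ≃ₐ[E] L) (a : (ZMod t)ˣ) :
    ∃ σ : K ≃ₐ[E] K, AlgEquiv.restrictNormalHom L σ = g ∧
      σ (IsCyclotomicExtension.zeta t L K) =
        (IsCyclotomicExtension.zeta t L K) ^ ((a : (ZMod t)ˣ) : ZMod t).val := by
  set ζ := IsCyclotomicExtension.zeta t L K with hζdef
  have hζ : IsPrimitiveRoot ζ t := IsCyclotomicExtension.zeta_spec t L K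
  obtain ⟨σ₀, hσ₀⟩ := AlgEquiv.restrictNormalHom_surjective (F := E) (K₁ := L) K g
  set b : (ZMod t)ˣ := hζ.autToPow E σ₀ with hb
  have hbspec : ζ ^ ((b : (ZMod t)ˣ) : ZMod t).val = σ₀ ζ := hζ.autToPow_spec E σ₀
  set τ : K ≃ₐ[L] K := (IsCyclotomicExtension.autEquivPow K hirr).symm (a * b⁻¹) with hτ
  have hτspec : ζ ^ (((a * b⁻¹ : (ZMod t)ˣ) : (ZMod t)ˣ) : ZMod t).val = τ ζ := by
    have h1 : (IsCyclotomicExtension.autEquivPow K hirr) τ = a * b⁻¹ := by
      rw [hτ, MulEquiv.apply_symm_apply]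
    have h2 := hζ.autToPow_spec L τ
    have h3 : hζ.autToPow L τ = (IsCyclotomicExtension.autEquivPow K hirr) τ := by
      rw [IsCyclotomicExtension.autEquivPow_apply]
      rfl
    rw [h3, h1] at h2
    exact h2
  refine ⟨(τ.restrictScalars E) * σ₀, ?_, ?_⟩
  · rw [map_mul, hσ₀]
    have h1 : AlgEquiv.restrictNormalHom L (τ.restrictScalars E) = 1 := by
      ext x
      apply (algebraMap L K).injective
      have h2 := AlgEquiv.restrictNormal_commutes (τ.restrictScalars E) L x
      have h3 : (AlgEquiv.restrictNormalHom L (τ.restrictScalars E)) x =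
          ((τ.restrictScalars E).restrictNormal L) x := rfl
      rw [h3, h2]
      show τ (algebraMap L K x) = algebraMap L K x
      exact τ.commutes x
    rw [h1, one_mul]
  · show τ (σ₀ ζ) = ζ ^ ((a : (ZMod t)ˣ) : ZMod t).val
    rw [← hbspec, map_pow, ← hτspec, ← pow_mul]
    have hmod : (((a * b⁻¹ : (ZMod t)ˣ) : ZMod t).val * ((b : (ZMod t)ˣ) : ZMod t).val) ≡
        ((a : (ZMod t)ˣ) : ZMod t).val [MOD t] := by
      rw [← ZMod.natCast_eq_natCast_iff]
      push_cast
      rw [ZMod.natCast_zmod_val, ZMod.natCast_zmod_val, ZMod.natCast_zmod_val]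
      have h5 : a * b⁻¹ * b = a := inv_mul_cancel_right a b
      exact_mod_cast congrArg (fun u : (ZMod t)ˣ => (u : ZMod t)) h5
    exact pow_eq_pow_of_modEq hmod hζ.pow_eq_one

end Fermat.Agent.S48Cheb
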