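import Mathlib
import Fermat.Agent.Lib.FrobDensity.Final

/-!
# S48 P5 seat (E), part 1: `Φ_t` is irreducible over a number field in which `t` is unramified

* `cf_exists_prime`: for a number field `L` and `M ≠ 0` there are a prime `t > 2`, `t ≡ 1 mod M`,
  and a prime `P` of `𝓞 L` with `t ∈ P`, `t ∉ P ^ 2`.
* `cf_irreducible_cyclotomic`: then `cyclotomic t L` is irreducible (Eisenstein at `P`).
-/

set_option autoImplicit false

open NumberField Polynomial

namespace Fermat.Agent.S48Cheb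

/-- A prime `t` outside the finite set of ramified primes, and a prime of `𝓞 L` over it. -/
theorem cf_exists_prime (L : Type) [Field L] [NumberField L] (M : ℕ) (hM : M ≠ 0) :
    ∃ t : ℕ, t.Prime ∧ t ≠ 2 ∧ t ≡ 1 [MOD M] ∧
      ∃ P : Ideal (𝓞 L), P.IsPrime ∧ (t : 𝓞 L) ∈ P ∧ (t : 𝓞 L) ∉ P ^ 2 := by
  classical
  have hfin := Fermat.Agent.FrobDensity.finite_ramified_int L
  obtain ⟨B, hB⟩ : ∃ B : ℕ, ∀ p ∈ {p : ℕ | p.Prime ∧ ∃ P : Ideal (𝓞 L), P.IsPrime ∧
      (p : 𝓞 L) ∈ P ∧ P.ramificationIdx ℤ ≠ 1}, p ≤ B := by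
    obtain ⟨B, hB⟩ := hfin.bddAbove
    exact ⟨B, fun p hp => hB hp⟩
  obtain ⟨t, ht, hgt, hmod⟩ := Nat.exists_prime_gt_modEq_one (max B 2) hM
  have ht2 : t ≠ 2 := by
    have := le_max_right B 2
    omega
  have htB : B < t := lt_of_le_of_lt (le_max_left B 2) hgt
  refine ⟨t, ht, ht2, hmod, ?_⟩
  -- a prime over `t`
  have hpprime : (Ideal.span {(t : ℤ)}).IsPrime :=
    (Ideal.span_singleton_prime (by exact_mod_cast ht.ne_zero)).mpr (Nat.prime_iff_prime_int.mp ht)
  have hp0 : Ideal.span {(t : ℤ)} ≠ ⊥ := by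
    rw [Ne, Ideal.span_singleton_eq_bot]
    exact_mod_cast ht.ne_zero
  obtain ⟨⟨P, hP, hPl⟩⟩ : Nonempty ((Ideal.span {(t : ℤ)}).primesOver (𝓞 L)) := inferInstance
  have htP : (t : 𝓞 L) ∈ P := by
    have h1 : (t : ℤ) ∈ Ideal.span {(t : ℤ)} := Ideal.mem_span_singleton_self _
    rw [hPl.over] at h1
    simpa using h1
  refine ⟨P, hP, htP, fun hsq => ?_⟩
  have hram : P.ramificationIdx ℤ = 1 := by
    by_contra h
    have := hB t ⟨ht, P, hP, htP, h⟩
    omega
  have hmap : Ideal.map (algebraMap ℤ (𝓞 L)) (Ideal.span {(t : ℤ)}) = Ideal.span {(t : 𝓞 L)} := by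
    rw [Ideal.map_span, Set.image_singleton]
    simp
  have hle : Ideal.map (algebraMap ℤ (𝓞 L)) (Ideal.span {(t : ℤ)}) ≤ P := by
    rw [hmap, Ideal.span_singleton_le_iff_mem]
    exact htP
  have hle2 : Ideal.map (algebraMap ℤ (𝓞 L)) (Ideal.span {(t : ℤ)}) ≤ P ^ 2 := by
    rw [hmap, Ideal.span_singleton_le_iff_mem]
    exact hsq
  have h1 := (Ideal.ramificationIdx'_ne_one_iff hle).mpr hle2
  apply h1
  rw [Ideal.ramificationIdx'_eq_ramificationIdx (Ideal.span {(t : ℤ)}) P hp0]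
  exact hram

/-- `Φ_t` is irreducible over `L` if some prime `P` of `𝓞 L` has `t ∈ P`, `t ∉ P ^ 2`. -/
theorem cf_irreducible_cyclotomic (L : Type) [Field L] [NumberField L] (t : ℕ) (ht : t.Prime)
    (P : Ideal (𝓞 L)) (hP : P.IsPrime) (htP : (t : 𝓞 L) ∈ P) (htP2 : (t : 𝓞 L) ∉ P ^ 2) :
    Irreducible (cyclotomic t L) := by
  have : Fact t.Prime := ⟨ht⟩
  -- the integral Eisenstein polynomial
  set f₀ : ℤ[X] := (cyclotomic t ℤ).comp (X + 1) with hf₀
  have hE₀ : f₀.IsEisensteinAt (Submodule.span ℤ {(t : ℤ)}) :=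
    cyclotomic_comp_X_add_one_isEisensteinAt t
  set f : (𝓞 L)[X] := (cyclotomic t (𝓞 L)).comp (X + 1) with hf
  have hfmap : f = f₀.map (algebraMap ℤ (𝓞 L)) := by
    rw [hf, hf₀, Polynomial.map_comp, map_cyclotomic, Polynomial.map_add, Polynomial.map_X,
      Polynomial.map_one]
  have hmonic₀ : f₀.Monic := by
    rw [hf₀]
    exact (cyclotomic.monic t ℤ).comp_X_add_C 1 |> fun h => by simpa using h
  have hmonic : f.Monic := by
    rw [hfmap]
    exact hmonic₀.map _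
  have hdeg : f.natDegree = f₀.natDegree := by
    rw [hfmap]
    exact hmonic₀.natDegree_map _
  have hdeg₀ : f₀.natDegree = t - 1 := by
    rw [hf₀, natDegree_comp, natDegree_cyclotomic, Nat.totient_prime ht,
      show (X + 1 : ℤ[X]) = X + C 1 by simp, natDegree_X_add_C, mul_one]
  have hE : f.IsEisensteinAt P := by
    refine ⟨?_, ?_, ?_⟩
    · rw [hmonic.leadingCoeff]
      exact fun h => hP.ne_top ((Ideal.eq_top_iff_one P).mpr h)
    · intro n hn
      rw [hdeg] at hn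
      have h1 := hE₀.mem hn
      rw [hfmap, coeff_map]
      obtain ⟨c, hc⟩ := Ideal.mem_span_singleton'.mp h1
      rw [← hc, map_mul]
      apply P.mul_mem_left
      simpa using htP
    · have h0 : f.coeff 0 = (t : 𝓞 L) := by
        rw [hf, coeff_zero_eq_eval_zero, eval_comp]
        simp [eval_one_cyclotomic_prime]
      rw [h0]
      exact htP2
  have hirr : Irreducible f :=
    hE.irreducible hP hmonic.isPrimitive (by rw [hdeg, hdeg₀]; have := ht.two_le; omega)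
  -- back to `cyclotomic t (𝓞 L)`
  have hirr' : Irreducible (cyclotomic t (𝓞 L)) := by
    have he : (algEquivAevalXAddC (R := 𝓞 L) 1) (cyclotomic t (𝓞 L)) = f := by
      rw [hf, algEquivAevalXAddC_apply, Polynomial.comp_eq_aeval, map_one]
    rw [← he] at hirr
    exact (MulEquiv.irreducible_iff
      ((algEquivAevalXAddC (R := 𝓞 L) 1 : (𝓞 L)[X] ≃ₐ[𝓞 L] (𝓞 L)[X]) :
        (𝓞 L)[X] ≃* (𝓞 L)[X])).mp hirr
  have h2 := (Monic.irreducible_iff_irreducible_map_fraction_map (K := L)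
    (cyclotomic.monic t (𝓞 L))).mp hirr'
  rwa [map_cyclotomic] at h2

end Fermat.Agent.S48Cheb
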